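import Fermat.Agent.Ribet.H782.KDDesc

/-!
# RIBET row 38, WALL-p, WILD: leaf **KD** = `H704.CoreOut.KDStatement`, PROVED (helper782)

`kd : H704.CoreOut.KDStatement` (VERBATIM).  Route (everything from main):

* `t` is fixed by `I₁ = H785.inertiaOne A p` (`ℚ̄^{I₁} = tameLevel A ζ`,
  `H944.Tame.mem_tameLevel_iff`) and `x` is fixed by `H₂ = I₁ ∩ Stab(x)` (`ℚ̄^{H₂} = wildLevel`,
  hypothesis of the statement); `exists_descended_gen782` (Hilbert 90, `S36.H512.desc_iota_gen`)
  gives normalised Kummer generators `ft` over `E₁` and `f₂` over `E₂`;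
* `p ∣ order ft` (`S17.H257.dvd_order_of_forall_place`), `ft` is not a `p`-th power (`t ≠ 0`),
  `DivisibleDiv E₂ p f₂` (`A2.T1.H669.divisibleDiv_of_ord`);
* `σ₁` normalises `H₂`, so `W = σ₁ f / (f · ft)` is `H₂`-fixed; it is a Kummer generator of
  `σ₁ x - x - t = 0`, hence `W = κ · G₀ ^ p` over `E₂` (`S36.H512.exists_const_mul_pow_of_iota`).
-/

set_option autoImplicit false
set_option synthInstance.maxHeartbeats 400000
set_option maxHeartbeats 1000000
set_option linter.unusedSectionVars false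
set_option linter.style.haveILetI false
set_option linter.unusedVariables false

noncomputable section

namespace Fermat.Agent.Ribet.H782

open AlgebraicCurve ModularCurve HahnSeries
open Fermat.Agent.S24 Fermat.Agent.A2.H708 Fermat.Agent.A2.H528 Fermat.Agent.A2.H129
open Fermat.Agent.Ribet.Spec Fermat.Agent.Ribet.H944.Wall Fermat.Agent.Ribet.H884
open Fermat.Agent.Ribet.H704 Fermat.Agent.A2
open Fermat.Agent.A2.T1.H669 (iota)
open Fermat.Agent.S36.H512 (lcHom)

theorem modularFunctionFieldFull_congr782 {a b : ℕ} (h : a = b) [NeZero a] [NeZero b] :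
    modularFunctionFieldFull a = modularFunctionFieldFull b := by
  subst h
  rfl

section Core

variable (p M' : ℕ) [NeZero M'] [NeZero p] [NeZero (p * M')]

/-- **KD, core form** (the level of the descended functions is any `F₀'` equal to
`modularFunctionFieldFull (p * M')`). -/
theorem kd_core782 (hp : p.Prime) (A : ValuationSubring Kbar)
    (F₀' : IntermediateField ℚ (LaurentSeries ℚ))
    (hF : F₀' = modularFunctionFieldFull (p * M'))
    (x t : JZero (p * M')) (hx : p • x = 0) (ht : p • t = 0)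
    (htχ : ∀ σ ∈ A.inertiaSubgroupIn ℚ, ∀ c : ℕ, CycloAt p σ c → σ • t = c • t)
    (hxn : ∀ σ ∈ A.inertiaSubgroupIn ℚ, ∃ n : ℕ, σ • x = x + n • t)
    (σ₀ : GQ) (hσ₀ : σ₀ ∈ A.inertiaSubgroupIn ℚ) (hσ₀x : σ₀ • x ≠ x)
    (ζ : Kbar) (hζ : IsPrimitiveRoot ζ p) (σ₁ : GQ) (u : Kbar)
    (hσ₁ : σ₁ ∈ A.inertiaSubgroupIn ℚ) (hσ₁c : CycloAt p σ₁ 1) (hσ₁x : σ₁ • x = x + t)
    (hE₂ : ∀ y : Kbar, y ∈ H944.Tame.wildLevel A ζ u ↔
        ∀ ρ ∈ A.inertiaSubgroupIn ℚ, CycloAt p ρ 1 → ρ • x = x → ρ y = y) :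
    ∃ (ft : laurentBaseChange (H944.Tame.tameLevel A ζ) F₀')
      (f₂ G₀ : laurentBaseChange (H944.Tame.wildLevel A ζ u) F₀') (Ft f : FF (p * M'))
      (κ : Kbar),
      (ft : LaurentSeries (H944.Tame.tameLevel A ζ)).leadingCoeff = 1 ∧
      (p : ℤ) ∣ (ft : LaurentSeries (H944.Tame.tameLevel A ζ)).order ∧
      (∀ z : laurentBaseChange (H944.Tame.tameLevel A ζ) F₀', z ^ p ≠ ft) ∧
      IsKummerGen (p * M') p Ft t ∧
      (Ft : LaurentSeries Kbar) = coeffMap (algebraMap (H944.Tame.tameLevel A ζ) Kbar)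
        (ft : LaurentSeries (H944.Tame.tameLevel A ζ)) ∧
      IsKummerGen (p * M') p f x ∧
      (f : LaurentSeries Kbar) = coeffMap (algebraMap (H944.Tame.wildLevel A ζ u) Kbar)
        (f₂ : LaurentSeries (H944.Tame.wildLevel A ζ u)) ∧
      f₂ ≠ 0 ∧ DivisibleDiv (H944.Tame.wildLevel A ζ u) p f₂ ∧
      κ ∈ H944.Tame.wildLevel A ζ u ∧
      coeffMap ((σ₁ : Kbar ≃ₐ[ℚ] Kbar) : Kbar →+* Kbar)
          (coeffMap (algebraMap (H944.Tame.wildLevel A ζ u) Kbar)
            (f₂ : LaurentSeries (H944.Tame.wildLevel A ζ u))) =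
        coeffMap (algebraMap (H944.Tame.wildLevel A ζ u) Kbar)
            (f₂ : LaurentSeries (H944.Tame.wildLevel A ζ u)) *
          HahnSeries.C κ *
          coeffMap (algebraMap (H944.Tame.tameLevel A ζ) Kbar)
            (ft : LaurentSeries (H944.Tame.tameLevel A ζ)) *
          (coeffMap (algebraMap (H944.Tame.wildLevel A ζ u) Kbar)
            (G₀ : LaurentSeries (H944.Tame.wildLevel A ζ u))) ^ p := by
  subst hF
  have hp0 : p ≠ 0 := hp.ne_zero
  have hppos : 0 < p := hp.pos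
  -- the two subgroups
  let H₁ : Subgroup (Kbar ≃ₐ[ℚ] Kbar) := Fermat.Agent.Ribet.H785.inertiaOne A p
  let H₂ : Subgroup (Kbar ≃ₐ[ℚ] Kbar) :=
    H₁ ⊓ MulAction.stabilizer (Kbar ≃ₐ[ℚ] Kbar) x
  have hK₁ : ∀ y : Kbar, (∀ τ ∈ H₁, τ y = y) → y ∈ H944.Tame.tameLevel A ζ := fun y hy =>
    H944.Tame.mem_tameLevel_of_inK1 A hζ hp0 (fun τ hτ hτ1 => hy τ ⟨hτ, hτ1⟩)
  have hK₁' : ∀ y ∈ H944.Tame.tameLevel A ζ, ∀ τ ∈ H₁, τ y = y := fun y hy τ hτ =>
    H944.Tame.inK1_of_mem_tameLevel A hζ.pow_eq_one hy τ hτ.1 hτ.2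
  have hK₂ : ∀ y : Kbar, y ∈ H944.Tame.wildLevel A ζ u ↔ ∀ τ ∈ H₂, τ y = y := by
    intro y
    rw [hE₂ y]
    constructor
    · intro h τ hτ
      exact h τ hτ.1.1 hτ.1.2 (MulAction.mem_stabilizer_iff.1 hτ.2)
    · intro h ρ hρ hρc hρx
      exact h ρ ⟨⟨hρ, hρc⟩, MulAction.mem_stabilizer_iff.2 hρx⟩
  have htfix : ∀ τ ∈ H₁, τ • t = t := by
    intro τ hτ
    have h1 := htχ τ hτ.1 1 hτ.2
    rwa [one_nsmul] at h1
  have hxfix : ∀ τ ∈ H₂, τ • x = x := fun τ hτ => MulAction.mem_stabilizer_iff.1 hτ.2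
  obtain ⟨gt, hgt1, hgtK⟩ :=
    exists_descended_gen782 H₁ (H944.Tame.tameLevel A ζ) hK₁ hppos t ht htfix
  obtain ⟨gx, hgx1, hgxK⟩ :=
    exists_descended_gen782 H₂ (H944.Tame.wildLevel A ζ u) (fun y hy => (hK₂ y).2 hy) hppos x hx
      hxfix
  have ht0 : t ≠ 0 := by
    rintro rfl
    obtain ⟨n, hn⟩ := hxn σ₀ hσ₀
    rw [smul_zero, add_zero] at hn
    exact hσ₀x hn
  have hgx0 : gx ≠ 0 := by
    rintro rfl
    have h0 : lcHom (modularFunctionFieldFull (p * M'))
        (0 : laurentBaseChange (H944.Tame.wildLevel A ζ u)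
          (modularFunctionFieldFull (p * M'))) = 1 := hgx1
    rw [map_zero] at h0
    exact zero_ne_one h0
  -- the comparison function `W`
  have hσ₁f : IsKummerGen (p * M') p
      (gal (p * M') σ₁ (iota (H944.Tame.wildLevel A ζ u) (modularFunctionFieldFull (p * M')) gx))
      (x + t) := by
    have h1 := isKummerGen_gal782 σ₁ hgxK
    rwa [hσ₁x] at h1
  have hfFt : IsKummerGen (p * M') p
      (iota (H944.Tame.wildLevel A ζ u) (modularFunctionFieldFull (p * M')) gx *
        iota (H944.Tame.tameLevel A ζ) (modularFunctionFieldFull (p * M')) gt) (x + t) :=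
    hgxK.mul hgtK
  have hWgen : IsKummerGen (p * M') p
      (gal (p * M') σ₁ (iota (H944.Tame.wildLevel A ζ u) (modularFunctionFieldFull (p * M')) gx) *
        (iota (H944.Tame.wildLevel A ζ u) (modularFunctionFieldFull (p * M')) gx *
          iota (H944.Tame.tameLevel A ζ) (modularFunctionFieldFull (p * M')) gt)⁻¹) 0 := by
    have h1 := hσ₁f.mul hfFt.inv
    rwa [add_neg_cancel] at h1
  obtain ⟨c, g, hc, hg, hcg⟩ := Fermat.Agent.Ribet.H669.exists_eq_const_mul_pow hWgen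
    (isKummerGen_one (N := p * M') (p := p))
  rw [one_mul] at hcg
  -- `W` is fixed by `H₂`
  have hfixf : ∀ ρ ∈ H₂, arithmeticRingAut (modularFunctionFieldFull (p * M')) ρ
      (iota (H944.Tame.wildLevel A ζ u) (modularFunctionFieldFull (p * M')) gx) =
      iota (H944.Tame.wildLevel A ζ u) (modularFunctionFieldFull (p * M')) gx := fun ρ hρ =>
    Fermat.Agent.S36.H512.arithmeticRingAut_iota (modularFunctionFieldFull (p * M')) H₂
      (H944.Tame.wildLevel A ζ u) (fun y hy τ hτ => (hK₂ y).1 hy τ hτ) gx hρ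
  have hfixFt : ∀ ρ ∈ H₂, arithmeticRingAut (modularFunctionFieldFull (p * M')) ρ
      (iota (H944.Tame.tameLevel A ζ) (modularFunctionFieldFull (p * M')) gt) =
      iota (H944.Tame.tameLevel A ζ) (modularFunctionFieldFull (p * M')) gt := fun ρ hρ =>
    Fermat.Agent.S36.H512.arithmeticRingAut_iota (modularFunctionFieldFull (p * M')) H₁
      (H944.Tame.tameLevel A ζ) hK₁' gt hρ.1
  have hσ₁H : σ₁ ∈ H₁ := ⟨hσ₁, hσ₁c⟩
  have hconj : ∀ ρ ∈ H₂, σ₁⁻¹ * ρ * σ₁ ∈ H₂ := by
    intro ρ hρ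
    refine ⟨H₁.mul_mem (H₁.mul_mem (H₁.inv_mem hσ₁H) hρ.1) hσ₁H, ?_⟩
    apply MulAction.mem_stabilizer_iff.2
    rw [mul_smul, mul_smul, hσ₁x, smul_add, hxfix ρ hρ,
      htfix ρ hρ.1, ← hσ₁x, inv_smul_smul]
  have hfixσf : ∀ ρ ∈ H₂, arithmeticRingAut (modularFunctionFieldFull (p * M')) ρ
      (gal (p * M') σ₁
        (iota (H944.Tame.wildLevel A ζ u) (modularFunctionFieldFull (p * M')) gx)) =
      gal (p * M') σ₁
        (iota (H944.Tame.wildLevel A ζ u) (modularFunctionFieldFull (p * M')) gx) := by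
    intro ρ hρ
    have h1 : ρ * σ₁ = σ₁ * (σ₁⁻¹ * ρ * σ₁) := by group
    show arithmeticRingAut (modularFunctionFieldFull (p * M')) ρ
      (arithmeticRingAut (modularFunctionFieldFull (p * M')) σ₁ _) =
      arithmeticRingAut (modularFunctionFieldFull (p * M')) σ₁ _
    rw [← Fermat.Agent.S36.H512.arithmeticRingAut_mul_apply, h1,
      Fermat.Agent.S36.H512.arithmeticRingAut_mul_apply, hfixf _ (hconj ρ hρ)]
  have hfixW : ∀ ρ ∈ H₂, arithmeticRingAut (modularFunctionFieldFull (p * M')) ρ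
      (gal (p * M') σ₁
          (iota (H944.Tame.wildLevel A ζ u) (modularFunctionFieldFull (p * M')) gx) *
        (iota (H944.Tame.wildLevel A ζ u) (modularFunctionFieldFull (p * M')) gx *
          iota (H944.Tame.tameLevel A ζ) (modularFunctionFieldFull (p * M')) gt)⁻¹) =
      gal (p * M') σ₁
          (iota (H944.Tame.wildLevel A ζ u) (modularFunctionFieldFull (p * M')) gx) *
        (iota (H944.Tame.wildLevel A ζ u) (modularFunctionFieldFull (p * M')) gx *
          iota (H944.Tame.tameLevel A ζ) (modularFunctionFieldFull (p * M')) gt)⁻¹ := by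
    intro ρ hρ
    rw [map_mul, map_inv₀, map_mul, hfixσf ρ hρ, hfixf ρ hρ, hfixFt ρ hρ]
  obtain ⟨Gq, hGq⟩ := Fermat.Agent.S36.H512.exists_iota_eq_of_fixed
    (modularFunctionFieldFull (p * M')) H₂ (H944.Tame.wildLevel A ζ u)
    (fun y hy => (hK₂ y).2 hy) _ hfixW
  have hGq0 : Gq ≠ 0 := by
    rintro rfl
    rw [map_zero] at hGq
    exact hWgen.1 hGq.symm
  obtain ⟨c', a, hc', ha, hGqa⟩ := Fermat.Agent.S36.H512.exists_const_mul_pow_of_iota
    (modularFunctionFieldFull (p * M')) H₂ (H944.Tame.wildLevel A ζ u) hK₂ hppos Gq hGq0 c g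
    (by rw [hGq, hcg])
  refine ⟨gt, gx, a, iota (H944.Tame.tameLevel A ζ) (modularFunctionFieldFull (p * M')) gt,
    iota (H944.Tame.wildLevel A ζ u) (modularFunctionFieldFull (p * M')) gx, (c' : Kbar),
    hgt1, ?_, ?_, hgtK, rfl, hgxK, rfl, hgx0, ?_, c'.2, ?_⟩
  · -- `p ∣ order`
    have h1 := dvd_order782 hgtK
    have h2 : ((iota (H944.Tame.tameLevel A ζ) (modularFunctionFieldFull (p * M')) gt :
        FF (p * M')) : LaurentSeries Kbar).order =
        (gt : LaurentSeries (H944.Tame.tameLevel A ζ)).order :=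
      Fermat.Agent.S36.H512.order_coeffMap _ (algebraMap (H944.Tame.tameLevel A ζ) Kbar).injective _
    rwa [h2] at h1
  · -- not a `p`-th power
    intro z hz
    have h1 : iota (H944.Tame.tameLevel A ζ) (modularFunctionFieldFull (p * M')) gt =
        algebraMap Kbar (FF (p * M')) 1 *
          (iota (H944.Tame.tameLevel A ζ) (modularFunctionFieldFull (p * M')) z) ^ p := by
      rw [map_one, one_mul, ← map_pow, hz]
    have hz0 : iota (H944.Tame.tameLevel A ζ) (modularFunctionFieldFull (p * M')) z ≠ 0 := by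
      intro h0
      rw [h0, zero_pow hp0, mul_zero] at h1
      exact hgtK.1 h1
    have h2 := hgtK
    rw [h1] at h2
    exact ht0 (eq_zero_of_isKummerGen_pow782 hp0 hz0 h2)
  · -- horizontal divisibility
    exact Fermat.Agent.A2.T1.H669.divisibleDiv_of_ord (H944.Tame.wildLevel A ζ u)
      (modularFunctionFieldFull (p * M')) p gx hgx0 (fun v => dvd_ord782 hgxK v)
  · -- the cocycle relation
    have h1 : gal (p * M') σ₁
          (iota (H944.Tame.wildLevel A ζ u) (modularFunctionFieldFull (p * M')) gx) =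
        algebraMap Kbar (FF (p * M')) (algebraMap (H944.Tame.wildLevel A ζ u) Kbar c') *
          (iota (H944.Tame.wildLevel A ζ u) (modularFunctionFieldFull (p * M')) a) ^ p *
          (iota (H944.Tame.wildLevel A ζ u) (modularFunctionFieldFull (p * M')) gx *
            iota (H944.Tame.tameLevel A ζ) (modularFunctionFieldFull (p * M')) gt) := by
      rw [← Fermat.Agent.A2.T1.H669.iota_algebraMap, ← map_pow, ← map_mul, ← hGqa, hGq,
        inv_mul_cancel_right₀ hfFt.1]
    have h2 := congrArg (fun z : FF (p * M') => (z : LaurentSeries Kbar)) h1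
    have e1 : ((gal (p * M') σ₁
          (iota (H944.Tame.wildLevel A ζ u) (modularFunctionFieldFull (p * M')) gx) :
          FF (p * M')) : LaurentSeries Kbar) =
        coeffMap ((σ₁ : Kbar ≃ₐ[ℚ] Kbar) : Kbar →+* Kbar)
          (coeffMap (algebraMap (H944.Tame.wildLevel A ζ u) Kbar)
            (gx : LaurentSeries (H944.Tame.wildLevel A ζ u))) := rfl
    have e2 : ((algebraMap Kbar (FF (p * M')) (algebraMap (H944.Tame.wildLevel A ζ u) Kbar c') *
          (iota (H944.Tame.wildLevel A ζ u) (modularFunctionFieldFull (p * M')) a) ^ p *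
          (iota (H944.Tame.wildLevel A ζ u) (modularFunctionFieldFull (p * M')) gx *
            iota (H944.Tame.tameLevel A ζ) (modularFunctionFieldFull (p * M')) gt) :
          FF (p * M')) : LaurentSeries Kbar) =
        algebraMap Kbar (LaurentSeries Kbar) (algebraMap (H944.Tame.wildLevel A ζ u) Kbar c') *
          (coeffMap (algebraMap (H944.Tame.wildLevel A ζ u) Kbar)
            (a : LaurentSeries (H944.Tame.wildLevel A ζ u))) ^ p *
          (coeffMap (algebraMap (H944.Tame.wildLevel A ζ u) Kbar)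
              (gx : LaurentSeries (H944.Tame.wildLevel A ζ u)) *
            coeffMap (algebraMap (H944.Tame.tameLevel A ζ) Kbar)
              (gt : LaurentSeries (H944.Tame.tameLevel A ζ))) := rfl
    have h3 : coeffMap ((σ₁ : Kbar ≃ₐ[ℚ] Kbar) : Kbar →+* Kbar)
          (coeffMap (algebraMap (H944.Tame.wildLevel A ζ u) Kbar)
            (gx : LaurentSeries (H944.Tame.wildLevel A ζ u))) =
        algebraMap Kbar (LaurentSeries Kbar) (algebraMap (H944.Tame.wildLevel A ζ u) Kbar c') *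
          (coeffMap (algebraMap (H944.Tame.wildLevel A ζ u) Kbar)
            (a : LaurentSeries (H944.Tame.wildLevel A ζ u))) ^ p *
          (coeffMap (algebraMap (H944.Tame.wildLevel A ζ u) Kbar)
              (gx : LaurentSeries (H944.Tame.wildLevel A ζ u)) *
            coeffMap (algebraMap (H944.Tame.tameLevel A ζ) Kbar)
              (gt : LaurentSeries (H944.Tame.tameLevel A ζ))) := e1.symm.trans (h2.trans e2)
    have hC : HahnSeries.C (Γ := ℤ) ((c' : H944.Tame.wildLevel A ζ u) : Kbar) =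
        algebraMap Kbar (LaurentSeries Kbar) (algebraMap (H944.Tame.wildLevel A ζ u) Kbar c') := by
      rw [algebraMap_laurentSeries_eq_single]
      rfl
    rw [h3, hC]
    ring

end Core

/-- **KD** (`H704.CoreOut.KDStatement`, VERBATIM). -/
theorem kd : Fermat.Agent.Ribet.H704.CoreOut.KDStatement := by
  intro p M' i1 i2 i3 hp hp5 hpM A hA S a hNE x t hx hxe ht hte htχ hxn hpeu σ₀ hσ₀ hσ₀c hσ₀x
    ζ hζ σ₁ u hσ₁ hσ₁c hσ₁x hσ₁u huA huA' hu0 hup hGood hσ₁p hσ₁E hu hE₂ hpeuu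
  exact kd_core782 p M' hp A _ (modularFunctionFieldFull_congr782 (Nat.mul_comm M' p)) x t
    hx.1 ht.1 htχ hxn σ₀ hσ₀ hσ₀x ζ hζ σ₁ u hσ₁ hσ₁c hσ₁x hE₂

end Fermat.Agent.Ribet.H782

end
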