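import Fermat.Agent.Ribet.H782.KDKummer

/-!
# RIBET row 38, WALL-p, WILD: leaf **KD**, part 2 (helper782): descent of a normalised generator
-/

set_option autoImplicit false
set_option synthInstance.maxHeartbeats 400000
set_option maxHeartbeats 1000000
set_option linter.unusedSectionVars false
set_option linter.style.haveILetI false

noncomputable section

namespace Fermat.Agent.Ribet.H782

open AlgebraicCurve ModularCurve HahnSeries
open Fermat.Agent.S24 Fermat.Agent.A2.H708 Fermat.Agent.A2.H528 Fermat.Agent.A2.H129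
open Fermat.Agent.Ribet.Spec Fermat.Agent.Ribet.H944.Wall Fermat.Agent.Ribet.H884
open Fermat.Agent.A2.T1.H669 (iota)
open Fermat.Agent.S36.H512 (lcHom)

section Descent

variable {N : ℕ} [NeZero N] {p : ℕ}

/-- **Descent of a normalised Kummer generator.**  A `p`-torsion class fixed by a subgroup
`H ≤ G_ℚ` has a Kummer generator with coefficients in any field `K ⊇ ℚ̄^H` and leading
coefficient `1`. -/
theorem exists_descended_gen782 (H : Subgroup (Kbar ≃ₐ[ℚ] Kbar)) (K : IntermediateField ℚ Kbar)
    (hK : ∀ y : Kbar, (∀ τ ∈ H, τ y = y) → y ∈ K) (hp : 0 < p) (x : JZero N) (hx : p • x = 0)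
    (hfix : ∀ τ ∈ H, τ • x = x) :
    ∃ g : laurentBaseChange K (modularFunctionFieldFull N),
      (g : LaurentSeries K).leadingCoeff = 1 ∧
      IsKummerGen N p (iota K (modularFunctionFieldFull N) g) x := by
  obtain ⟨f₀, hf₀⟩ := exists_isKummerGen p x hx
  have hf0 : f₀ ≠ 0 := hf₀.1
  have hinv : ∀ τ ∈ H, ∃ (c : Kbar) (y : laurentBaseChange Kbar (modularFunctionFieldFull N)),
      arithmeticRingAut (modularFunctionFieldFull N) τ f₀ =
        algebraMap Kbar (laurentBaseChange Kbar (modularFunctionFieldFull N)) c * y ^ p * f₀ := by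
    intro τ hτ
    have h1 := isKummerGen_galSubOne p τ hf₀
    rw [hfix τ hτ, sub_self] at h1
    obtain ⟨c, g, -, -, hcg⟩ :=
      Fermat.Agent.Ribet.H669.exists_eq_const_mul_pow h1 (isKummerGen_one (N := N) (p := p))
    refine ⟨c, g, ?_⟩
    have h2 : gal N τ f₀ = (gal N τ f₀ * f₀⁻¹) * f₀ := by
      rw [mul_assoc, inv_mul_cancel₀ hf0, mul_one]
    have h3 : arithmeticRingAut (modularFunctionFieldFull N) τ f₀ = gal N τ f₀ := rfl
    rw [h3, h2, hcg, one_mul]
  obtain ⟨g, c, h, hg0, hc0, hh0, hg⟩ :=
    Fermat.Agent.S36.H512.desc_iota_gen (modularFunctionFieldFull N) H K hK hp f₀ hf0 hinv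
  set a : K := lcHom (modularFunctionFieldFull N) g with ha
  have ha0 : a ≠ 0 := by
    rw [ha, Ne, map_eq_zero]
    exact hg0
  refine ⟨algebraMap K (laurentBaseChange K (modularFunctionFieldFull N)) a⁻¹ * g, ?_, ?_⟩
  · show lcHom (modularFunctionFieldFull N)
      (algebraMap K (laurentBaseChange K (modularFunctionFieldFull N)) a⁻¹ * g) = 1
    rw [map_mul, Fermat.Agent.S36.H512.lcHom_algebraMap, ← ha, inv_mul_cancel₀ ha0]
  · rw [map_mul, Fermat.Agent.A2.T1.H669.iota_algebraMap, hg]
    have hconst : algebraMap Kbar (laurentBaseChange Kbar (modularFunctionFieldFull N))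
          (algebraMap K Kbar a⁻¹) *
        (algebraMap Kbar (laurentBaseChange Kbar (modularFunctionFieldFull N)) c * h ^ p * f₀) =
        algebraMap Kbar (FF N) (algebraMap K Kbar a⁻¹ * c) * h ^ p * f₀ := by
      rw [map_mul]
      ring
    rw [hconst]
    have hne : algebraMap K Kbar a⁻¹ * c ≠ 0 := by
      refine mul_ne_zero ?_ hc0
      rw [Ne, map_eq_zero]
      exact inv_ne_zero ha0
    exact isKummerGen_const_mul_pow782 hne hh0 hf₀

/-- The order of the expansion of a Kummer generator is divisible by `p`. -/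
theorem dvd_order782 {f : FF N} {x : JZero N} (h : IsKummerGen N p f x) :
    (p : ℤ) ∣ (f : LaurentSeries Kbar).order := by
  have key := Fermat.Agent.S17.H257.dvd_order_of_forall_place (K := Kbar) (F := FF N)
    (C := Kbar) ((modularFunctionFieldBar N).val.toRingHom) ?_ (p : ℤ) f h.1
    (fun v => dvd_ord782 h v)
  · exact key
  · intro c hc
    show ((algebraMap Kbar (FF N) c : FF N) : LaurentSeries Kbar).order = 0
    have h1 : ((algebraMap Kbar (FF N) c : FF N) : LaurentSeries Kbar) =
        algebraMap Kbar (LaurentSeries Kbar) c := rfl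
    rw [h1, algebraMap_laurentSeries_eq_single, HahnSeries.order_single hc]

end Descent

end Fermat.Agent.Ribet.H782

end
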