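import Fermat.Agent.Ribet.H704.KDSpec
import Fermat.Agent.S36.H512.DescWire
import Fermat.Agent.S17.H257.PlaceOfExpansion
import Fermat.Agent.Ribet.H884.SlopeS1
import Fermat.Agent.Ribet.H884.SlopeClosed
import Fermat.Agent.Ribet.H669.Gen
import Fermat.Agent.Ribet.H944.TameLevel
import Fermat.Agent.Lib.HI.H864.Modular

/-!
# RIBET row 38, WALL-p, WILD: leaf **KD** (`H704.CoreOut.KDStatement`), part 1 (helper782)

Kummer calculus on `FF N = ℚ̄(X₀(N))` and the descent of a Kummer generator of a class fixed by a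
subgroup `H ≤ G_ℚ` to a field `K ⊇ ℚ̄^H` (normalised: leading coefficient `1`).
Everything is glue on top of `S36.H512` (Hilbert 90 for Kummer cocycles, on main).
-/

set_option autoImplicit false
set_option synthInstance.maxHeartbeats 400000
set_option maxHeartbeats 1000000
set_option linter.unusedSectionVars false
set_option linter.style.haveILetI false

noncomputable section

namespace Fermat.Agent.Ribet.H782

open AlgebraicCurve ModularCurve HahnSeries
open Fermat.Agent.S24 Fermat.Agent.A2.H708 Fermat.Agent.A2.H528 Fermat.Agent.A2.H129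
open Fermat.Agent.Ribet.Spec Fermat.Agent.Ribet.H944.Wall Fermat.Agent.Ribet.H884
open Fermat.Agent.A2.T1.H669 (iota)

section Kummer

variable {N : ℕ} [NeZero N] {p : ℕ}

/-- `σ f` is a Kummer generator of `σ x`. -/
theorem isKummerGen_gal782 (σ : Kbar ≃ₐ[ℚ] Kbar) {f : FF N} {x : JZero N}
    (h : IsKummerGen N p f x) : IsKummerGen N p (gal N σ f) (σ • x) := by
  have h1 := (isKummerGen_galSubOne p σ h).mul h
  have hf : f ≠ 0 := h.1
  rw [mul_assoc, inv_mul_cancel₀ hf, mul_one, sub_add_cancel] at h1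
  exact h1

/-- A class with a Kummer generator of the shape `c · h ^ p` is trivial. -/
theorem eq_zero_of_isKummerGen_pow782 (hp : p ≠ 0) {c : Kbar} {h : FF N} (hh : h ≠ 0)
    {x : JZero N} (hx : IsKummerGen N p (algebraMap Kbar (FF N) c * h ^ p) x) : x = 0 := by
  obtain ⟨hf, D, rfl, hD⟩ := hx
  have hc : algebraMap Kbar (FF N) c ≠ 0 := left_ne_zero_of_mul hf
  have hprin : (D : Divisor Kbar (FF N)) ∈ Divisor.principal (K := Kbar) (F := FF N) := by
    refine ⟨h, hh, fun v => ?_⟩
    have h1 := hD v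
    rw [Place.ord_mul v hc (pow_ne_zero p hh), ord_algebraMap_eq_zero, zero_add,
      ← zpow_natCast, Place.ord_zpow] at h1
    have hp' : (p : ℤ) ≠ 0 := by exact_mod_cast hp
    exact (mul_left_cancel₀ hp' h1).symm
  exact (QuotientAddGroup.eq_zero_iff D).2 (by
    simpa [AddSubgroup.mem_addSubgroupOf] using hprin)

/-- `c · h ^ p` is a Kummer generator of the trivial class. -/
theorem isKummerGen_const_pow782 {c : Kbar} (hc : c ≠ 0) {h : FF N} (hh : h ≠ 0) :
    IsKummerGen N p (algebraMap Kbar (FF N) c * h ^ p) 0 := by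
  obtain ⟨Dh, hDh, hdeg⟩ :=
    (Fermat.Agent.Lib.HI.H864.hasPrincipalDivisors_FF N).exists_divisor h hh
  set Dh0 : Divisor.degZero (K := Kbar) (F := FF N) := ⟨Dh, hdeg⟩ with hDh0
  have hC : algebraMap Kbar (FF N) c ≠ 0 := by
    rw [Ne, map_eq_zero]
    exact hc
  refine ⟨mul_ne_zero hC (pow_ne_zero _ hh), Dh0, ?_, fun v => ?_⟩
  · show (QuotientAddGroup.mk Dh0 : Pic0 Kbar (FF N)) = 0
    rw [QuotientAddGroup.eq_zero_iff]
    exact AddSubgroup.mem_addSubgroupOf.mpr ⟨h, hh, fun v => hDh v⟩
  · rw [Place.ord_mul v hC (pow_ne_zero _ hh), ord_algebraMap_eq_zero, zero_add,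
      ← zpow_natCast, Place.ord_zpow, hDh0, hDh v]

/-- Multiplying a Kummer generator by a constant and a `p`-th power does not change the class. -/
theorem isKummerGen_const_mul_pow782 {c : Kbar} (hc : c ≠ 0) {h f : FF N} (hh : h ≠ 0)
    {x : JZero N} (hf : IsKummerGen N p f x) :
    IsKummerGen N p (algebraMap Kbar (FF N) c * h ^ p * f) x := by
  have h1 := (isKummerGen_const_pow782 (p := p) hc hh).mul hf
  rwa [zero_add] at h1

/-- The class of a Kummer generator is unique. -/
theorem class_unique782 (hp : p ≠ 0) {f : FF N} {x y : JZero N} (hx : IsKummerGen N p f x)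
    (hy : IsKummerGen N p f y) : x = y := by
  have h1 := hx.mul hy.inv
  have hf : f ≠ 0 := hx.1
  rw [mul_inv_cancel₀ hf] at h1
  have h2 : IsKummerGen N p (algebraMap Kbar (FF N) 1 * (1 : FF N) ^ p) (x + -y) := by
    rw [map_one, one_pow, one_mul]
    exact h1
  have h3 := eq_zero_of_isKummerGen_pow782 hp (one_ne_zero (α := FF N)) h2
  exact add_neg_eq_zero.1 h3

/-- The orders of a Kummer generator are divisible by `p`. -/
theorem dvd_ord782 {f : FF N} {x : JZero N} (h : IsKummerGen N p f x)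
    (v : Place Kbar (FF N)) : (p : ℤ) ∣ v.ord f := by
  obtain ⟨-, D, -, hD⟩ := h
  rw [hD v]
  exact dvd_mul_right _ _

end Kummer

end Fermat.Agent.Ribet.H782

end
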